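import Fermat.Agent.Corollaries.ZetaK.HL.Em
import Fermat.Agent.Corollaries.ZetaK.HL.Mean

/-!
# The zero density theorem of Bohr and Landau: `N(σ, T) = O(T)` for `σ > 1/2` (statements)
-/

set_option autoImplicit false

noncomputable section

namespace Fermat.Agent.Cor.ZD

open Complex Real Filter Topology Set MeasureTheory

/-- (Z1) the simplest approximate formula, `1/2 ≤ σ ≤ 4` -/
def ApproxGenStmt : Prop := ∃ A : ℝ, 0 < A ∧ ∀ (σ t : ℝ) (N : ℕ), 1 / 2 ≤ σ → σ ≤ 4 → 1 ≤ N →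
  N ≤ 2 * t → t ≤ 3 * N →
  ‖riemannZeta (σ + t * I) - ∑ n ∈ Finset.Icc 1 N, (n : ℂ) ^ (-(σ + t * I : ℂ))‖ ≤ A

/-- (Z2) mean squares on vertical lines, uniformly in `σ₀ ≤ σ ≤ 4` -/
def MeanGenStmt : Prop := ∀ σ₀ : ℝ, 1 / 2 < σ₀ → ∃ A : ℝ, 0 < A ∧ ∀ (σ T : ℝ), σ₀ ≤ σ → σ ≤ 4 →
  1 ≤ T → ∫ u in T..(2 * T), ‖riemannZeta (σ + 2 * u * I)‖ ^ 2 ≤ A * T

/-- (Z4) **Bohr and Landau (1914)**: `N(σ₀, T) = O(T)`, zeros counted with multiplicity -/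
def DensityStmt : Prop := ∀ σ₀ : ℝ, 1 / 2 < σ₀ → ∃ C : ℝ, 0 < C ∧ ∀ T : ℝ, 1 ≤ T →
  {s : ℂ | riemannZeta s = 0 ∧ σ₀ ≤ s.re ∧ 0 < s.im ∧ s.im ≤ T}.Finite ∧
  (∑ᶠ s ∈ {s : ℂ | riemannZeta s = 0 ∧ σ₀ ≤ s.re ∧ 0 < s.im ∧ s.im ≤ T},
    (analyticOrderNatAt riemannZeta s : ℝ)) ≤ C * T

end Fermat.Agent.Cor.ZD

end
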