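import Fermat.Agent.Corollaries.ZetaK.ZD.Defs
import Fermat.Agent.Corollaries.ZetaK.BL.Unif
import Fermat.Agent.Corollaries.ZetaK.BL.Appr
import Fermat.Agent.Corollaries.ZetaK.BL.Dir

/-!
# Bohr and Landau, (Z2): mean squares on vertical lines, uniformly
-/

set_option autoImplicit false

noncomputable section

namespace Fermat.Agent.Cor.ZD

open Complex Real Filter Topology Set MeasureTheory

open Fermat.Agent.Cor.BL (unifStmt apprStmt dirStmt continuousOn_zeta)

/-- (Z2) -/
theorem meanGenStmt : MeanGenStmt := by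
  intro σ₀ hσ₀
  obtain ⟨C, hC, h⟩ := unifStmt apprStmt dirStmt (σ₀ - 1 / 2) (by linarith)
  refine ⟨2 * C, by linarith, fun σ T hσ hσ' hT => ?_⟩
  have h1 := h σ (4 * T) (by linarith) hσ' (by linarith)
  have e : ∀ u : ℝ, ‖riemannZeta (σ + 2 * u * I)‖ ^ 2 =
      (fun t : ℝ => ‖riemannZeta (σ + t * I)‖ ^ 2) (2 * u) := by
    intro u
    simp only
    push_cast
    rfl
  simp_rw [e]
  rw [intervalIntegral.integral_comp_mul_left (fun t : ℝ => ‖riemannZeta (σ + t * I)‖ ^ 2)
    two_ne_zero]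
  have h2 : ∫ t in (2 * T)..(2 * (2 * T)), ‖riemannZeta (σ + t * I)‖ ^ 2 ≤
      ∫ t in 1..(4 * T), ‖riemannZeta (σ + t * I)‖ ^ 2 := by
    refine intervalIntegral.integral_mono_interval (by linarith) (by linarith) (by linarith) ?_
      (((continuousOn_zeta σ (by linarith)).norm).pow 2).intervalIntegrable
    exact Eventually.of_forall fun t => sq_nonneg _
  rw [smul_eq_mul]
  nlinarith

end Fermat.Agent.Cor.ZD

end
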