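import Fermat.Agent.Corollaries.ZetaK.ZD.Main
import Fermat.Agent.Corollaries.ZetaK.ZD.Mean

/-!
# The zero density theorem of Bohr and Landau (1914)
-/

set_option autoImplicit false

noncomputable section

namespace Fermat.Agent.Cor.ZD

open Complex

/-- **Bohr and Landau (1914)**: for every `σ₀ > 1/2` the number `N(σ₀, T)` of zeros of the Riemann
zeta function with `re s ≥ σ₀` and `0 < im s ≤ T`, counted with multiplicity, is at most `C T`
(`C` depends on `σ₀`; the set is finite, so the `finsum` is a true sum). -/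
theorem bohr_landau {σ₀ : ℝ} (h : 1 / 2 < σ₀) : ∃ C : ℝ, 0 < C ∧ ∀ T : ℝ, 1 ≤ T →
    {s : ℂ | riemannZeta s = 0 ∧ σ₀ ≤ s.re ∧ 0 < s.im ∧ s.im ≤ T}.Finite ∧
    (∑ᶠ s ∈ {s : ℂ | riemannZeta s = 0 ∧ σ₀ ≤ s.re ∧ 0 < s.im ∧ s.im ≤ T},
      (analyticOrderNatAt riemannZeta s : ℝ)) ≤ C * T :=
  densityStmt meanGenStmt σ₀ h

end Fermat.Agent.Cor.ZD

end
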