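import Fermat.Agent.Corollaries.ZetaK.ZD.Jensen

/-!
# The zeros with `T/2 < im s ≤ T`
-/

set_option autoImplicit false

noncomputable section

namespace Fermat.Agent.Cor.ZD

open Complex Real Filter Topology Set MeasureTheory Metric

/-! ### Mean squares -/

theorem ne_one_of_im {s : ℂ} (h : s.im ≠ 0) : s ≠ 1 := by
  rintro rfl
  exact h one_im

theorem continuousAt_zeta {s : ℂ} (h : s ≠ 1) : ContinuousAt riemannZeta s :=
  (differentiableAt_riemannZeta h).continuousAt

theorem intervalIntegrable_sq (σ : ℝ) {a b : ℝ} (ha : 0 < a) (hb : 0 < b) :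
    IntervalIntegrable (fun t : ℝ => ‖riemannZeta (σ + t * I)‖ ^ 2) volume a b := by
  refine ContinuousOn.intervalIntegrable fun t ht => ContinuousAt.continuousWithinAt ?_
  have ht0 : 0 < t := by
    have h := ht.1
    rcases le_total a b with h1 | h1
    · rw [inf_eq_left.mpr h1] at h; linarith
    · rw [inf_eq_right.mpr h1] at h; linarith
  have h1 : (σ + t * I : ℂ) ≠ 1 := ne_one_of_im (by simp; exact ht0.ne')
  have h2 : ContinuousAt (fun t : ℝ => riemannZeta (σ + t * I)) t :=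
    ContinuousAt.comp (f := fun t : ℝ => (σ + t * I : ℂ)) (g := riemannZeta)
      (continuousAt_zeta h1) (by fun_prop)
  exact h2.norm.pow 2

/-- the mean square over `[T/4, 2T]` -/
theorem mean_wide {A σ T : ℝ} (hT : 8 ≤ T)
    (hA : ∀ T : ℝ, 1 ≤ T → ∫ u in T..(2 * T), ‖riemannZeta (σ + 2 * u * I)‖ ^ 2 ≤ A * T) :
    ∫ t in (T / 4)..(2 * T), ‖riemannZeta (σ + t * I)‖ ^ 2 ≤ 2 * A * T := by
  have key : ∀ T : ℝ, 1 ≤ T →
      ∫ t in (2 * T)..(4 * T), ‖riemannZeta (σ + t * I)‖ ^ 2 ≤ 2 * (A * T) := by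
    intro T hT
    have h := hA T hT
    have e : ∫ u in T..(2 * T), ‖riemannZeta (σ + 2 * u * I)‖ ^ 2 =
        (2 : ℝ)⁻¹ * ∫ t in (2 * T)..(4 * T), ‖riemannZeta (σ + t * I)‖ ^ 2 := by
      have h1 := intervalIntegral.integral_comp_mul_left (a := T) (b := 2 * T)
        (fun t : ℝ => ‖riemannZeta (σ + t * I)‖ ^ 2) (two_ne_zero (α := ℝ))
      rw [smul_eq_mul, show (2 : ℝ) * (2 * T) = 4 * T by ring] at h1
      rw [← h1]
      refine intervalIntegral.integral_congr fun u _ => ?_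
      have e2 : (σ + 2 * (u : ℂ) * I : ℂ) = σ + ((2 * u : ℝ) : ℂ) * I := by
        push_cast
        ring
      rw [e2]
    rw [e] at h
    linarith
  have h1 := key (T / 8) (by linarith)
  have h2 := key (T / 4) (by linarith)
  have h3 := key (T / 2) (by linarith)
  rw [show 2 * (T / 8) = T / 4 by ring, show 4 * (T / 8) = T / 2 by ring] at h1
  rw [show 2 * (T / 4) = T / 2 by ring, show 4 * (T / 4) = T by ring] at h2
  rw [show 2 * (T / 2) = T by ring, show 4 * (T / 2) = 2 * T by ring] at h3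
  have i1 := intervalIntegrable_sq σ (a := T / 4) (b := T / 2) (by linarith) (by linarith)
  have i2 := intervalIntegrable_sq σ (a := T / 2) (b := T) (by linarith) (by linarith)
  have i3 := intervalIntegrable_sq σ (a := T) (b := 2 * T) (by linarith) (by linarith)
  rw [← intervalIntegral.integral_add_adjacent_intervals (i1.trans i2) i3,
    ← intervalIntegral.integral_add_adjacent_intervals i1 i2]
  have hA0 : 0 ≤ A * T := by
    have h4 := hA T (by linarith)
    have h5 : 0 ≤ ∫ u in T..(2 * T), ‖riemannZeta (σ + 2 * u * I)‖ ^ 2 :=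
      intervalIntegral.integral_nonneg (by linarith) fun _ _ => sq_nonneg _
    linarith
  linarith

/-! ### The circle averages -/

/-- the integrand (cut off below height 4) -/
def gz (R t θ : ℝ) : ℝ := ‖riemannZeta (circleMap (2 + (max t 4 : ℝ) * I) R θ)‖ ^ 2

theorem circleMap_im (t R θ : ℝ) :
    (circleMap (2 + (t : ℂ) * I) R θ).im = t + R * Real.sin θ := by
  rw [circleMap, exp_mul_I]
  simp [← ofReal_cos, ← ofReal_sin]

theorem circleMap_eq (t R θ : ℝ) : circleMap (2 + (t : ℂ) * I) R θ =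
    ((2 + R * Real.cos θ : ℝ) : ℂ) + ((t + R * Real.sin θ : ℝ) : ℂ) * I := by
  rw [circleMap, exp_mul_I, ← ofReal_cos, ← ofReal_sin]
  push_cast
  ring

theorem circleMap_ne_one {t R : ℝ} (hR : |R| ≤ 3 / 2) (ht : 4 ≤ t) (θ : ℝ) :
    circleMap (2 + (t : ℂ) * I) R θ ≠ 1 := by
  refine ne_one_of_im ?_
  rw [circleMap_im]
  have h1 : |R * Real.sin θ| ≤ 3 / 2 := by
    rw [abs_mul]
    calc |R| * |Real.sin θ| ≤ 3 / 2 * 1 := by
          gcongr
          exact Real.abs_sin_le_one θ
      _ = 3 / 2 := by ring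
  have := (abs_le.mp h1).1
  intro h
  linarith

theorem continuous_gz {R : ℝ} (hR : |R| ≤ 3 / 2) : Continuous (Function.uncurry (gz R)) := by
  rw [continuous_iff_continuousAt]
  rintro ⟨t, θ⟩
  have h1 : circleMap (2 + ((max t 4 : ℝ) : ℂ) * I) R θ ≠ 1 :=
    circleMap_ne_one hR (le_max_right _ _) θ
  have h2 : Continuous fun p : ℝ × ℝ => circleMap (2 + ((max p.1 4 : ℝ) : ℂ) * I) R p.2 := by
    unfold circleMap
    fun_prop
  have h3 : ContinuousAt (fun p : ℝ × ℝ =>
      riemannZeta (circleMap (2 + ((max p.1 4 : ℝ) : ℂ) * I) R p.2)) (t, θ) :=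
    ContinuousAt.comp (f := fun p : ℝ × ℝ => circleMap (2 + ((max p.1 4 : ℝ) : ℂ) * I) R p.2)
      (g := riemannZeta) (continuousAt_zeta h1) h2.continuousAt
  exact h3.norm.pow 2

/-- swapped -/
def gs (R θ t : ℝ) : ℝ := gz R t θ

theorem continuous_gs {R : ℝ} (hR : |R| ≤ 3 / 2) : Continuous (Function.uncurry (gs R)) := by
  have h := (continuous_gz hR).comp (continuous_snd.prodMk continuous_fst)
  refine h.congr fun p => ?_
  rfl

theorem continuous_inner_gz {R : ℝ} (hR : |R| ≤ 3 / 2) (a b : ℝ) :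
    Continuous fun θ : ℝ => ∫ t in a..b, gz R t θ :=
  intervalIntegral.continuous_parametric_intervalIntegral_of_continuous' (f := gs R)
    (continuous_gs hR) a b

/-- the (cut off) circle average -/
def Ph (R t : ℝ) : ℝ := (2 * π)⁻¹ * ∫ θ in (0 : ℝ)..(2 * π), gz R t θ

theorem continuous_Ph {R : ℝ} (hR : |R| ≤ 3 / 2) : Continuous (Ph R) := by
  unfold Ph
  exact continuous_const.mul
    (intervalIntegral.continuous_parametric_intervalIntegral_of_continuous' (continuous_gz hR) _ _)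

theorem Ph_eq {R t : ℝ} (ht : 4 ≤ t) :
    Ph R t = circleAverage (fun z => ‖riemannZeta z‖ ^ 2) (2 + t * I) R := by
  rw [Ph, circleAverage, smul_eq_mul]
  simp only [gz]
  rw [max_eq_left ht]

/-- the integral of the circle averages -/
theorem integral_Ph_le {A R σ₁ T b : ℝ} (hR0 : 0 ≤ R) (hR : R ≤ 3 / 2) (hσR : σ₁ = 2 - R)
    (hT : 8 ≤ T) (hb : T / 2 ≤ b) (hbT : b ≤ T + 1)
    (hA : ∀ σ T : ℝ, σ₁ ≤ σ → σ ≤ 4 → 1 ≤ T →
      ∫ u in T..(2 * T), ‖riemannZeta (σ + 2 * u * I)‖ ^ 2 ≤ A * T) :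
    ∫ t in (T / 2)..b, Ph R t ≤ 2 * A * T := by
  have hpi := Real.pi_pos
  have hRabs : |R| ≤ 3 / 2 := by rwa [abs_of_nonneg hR0]
  have hswap : ∫ t in (T / 2)..b, ∫ θ in (0 : ℝ)..(2 * π), gz R t θ =
      ∫ θ in (0 : ℝ)..(2 * π), ∫ t in (T / 2)..b, gz R t θ := by
    refine intervalIntegral_intervalIntegral_swap ?_
    refine (((continuous_gz hRabs).continuousOn (s := (uIcc (T / 2) b) ×ˢ
      (uIcc 0 (2 * π)))).integrableOn_compact (isCompact_uIcc.prod isCompact_uIcc)).mono_set ?_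
    exact Set.prod_mono uIoc_subset_uIcc uIoc_subset_uIcc
  have hrow : ∀ θ : ℝ, ∫ t in (T / 2)..b, gz R t θ ≤ 2 * A * T := by
    intro θ
    have hs := abs_le.mp (Real.abs_sin_le_one θ)
    have hc := abs_le.mp (Real.abs_cos_le_one θ)
    have hs1 : -(3 / 2) ≤ R * Real.sin θ := by nlinarith
    have hs2 : R * Real.sin θ ≤ 3 / 2 := by nlinarith
    have hc1 : -R ≤ R * Real.cos θ := by nlinarith
    have hc2 : R * Real.cos θ ≤ R := by nlinarith
    set σ : ℝ := 2 + R * Real.cos θ with hσ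
    set d : ℝ := R * Real.sin θ with hd
    have e : ∫ t in (T / 2)..b, gz R t θ =
        ∫ t in (T / 2)..b, (fun t : ℝ => ‖riemannZeta (σ + t * I)‖ ^ 2) (t + d) := by
      refine intervalIntegral.integral_congr fun t ht => ?_
      rw [uIcc_of_le hb] at ht
      simp only [gz]
      rw [max_eq_left (by linarith [ht.1] : (4 : ℝ) ≤ t), circleMap_eq]
    rw [e, intervalIntegral.integral_comp_add_right (fun t : ℝ => ‖riemannZeta (σ + t * I)‖ ^ 2) d]
    refine le_trans ?_ (mean_wide (σ := σ) (A := A) hT fun T' hT' =>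
      hA σ T' (by rw [hσR, hσ]; linarith) (by rw [hσ]; linarith) hT')
    refine intervalIntegral.integral_mono_interval (by linarith) (by linarith) (by linarith)
      (Eventually.of_forall fun _ => sq_nonneg _)
      (intervalIntegrable_sq σ (by linarith) (by linarith))
  unfold Ph
  rw [intervalIntegral.integral_const_mul, hswap]
  have h1 : ∫ θ in (0 : ℝ)..(2 * π), ∫ t in (T / 2)..b, gz R t θ ≤
      ∫ _θ in (0 : ℝ)..(2 * π), 2 * A * T := by
    have hc : Continuous fun θ : ℝ => ∫ t in (T / 2)..b, gz R t θ :=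
      continuous_inner_gz hRabs _ _
    exact intervalIntegral.integral_mono_on (by positivity) (hc.intervalIntegrable _ _)
      intervalIntegrable_const fun θ _ => hrow θ
  rw [intervalIntegral.integral_const, sub_zero, smul_eq_mul] at h1
  calc (2 * π)⁻¹ * _ ≤ (2 * π)⁻¹ * (2 * π * (2 * A * T)) := by gcongr
    _ = 2 * A * T := by field_simp

end Fermat.Agent.Cor.ZD

end
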