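import Fermat.Agent.Corollaries.ZetaK.ZD.Defs

/-!
# Jensen's formula with mean squares
-/

set_option autoImplicit false

noncomputable section

namespace Fermat.Agent.Cor.ZD

open Complex Real Filter Topology Set MeasureTheory Metric MeromorphicOn

theorem untop_map (e : ℕ∞) :
    ((e.map (↑) : WithTop ℤ)).untop₀ = ((e.toNat : ℕ) : ℤ) := by
  induction e using ENat.recTopCoe with
  | top => simp
  | coe n => simp

theorem divisor_eq {f : ℂ → ℂ} {U : Set ℂ} (hf : AnalyticOnNhd ℂ f U) {z : ℂ} (hz : z ∈ U) :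
    divisor f U z = (analyticOrderNatAt f z : ℤ) := by
  rw [AnalyticOnNhd.divisor_apply hf hz, untop_map]
  rfl

/-- Jensen's inequality, with the mean square on the circle -/
theorem jensen_sum_le {f : ℂ → ℂ} {c : ℂ} {r R : ℝ} (hr : 0 < r) (hrR : r < R)
    (hf : AnalyticOnNhd ℂ f (closedBall c R)) (hfc : f c ≠ 0) (S : Finset ℂ)
    (hS : ∀ s ∈ S, s ∈ closedBall c r) :
    (∑ s ∈ S, (analyticOrderNatAt f s : ℝ)) * Real.log (R / r) ≤
      circleAverage (fun z => ‖f z‖ ^ 2) c R / 2 - Real.log ‖f c‖ := by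
  have hR : 0 < R := hr.trans hrR
  have hRabs : |R| = R := abs_of_pos hR
  have hlog : 0 < Real.log (R / r) := Real.log_pos (by rwa [one_lt_div hr])
  have hf' : AnalyticOnNhd ℂ f (closedBall c |R|) := by rwa [hRabs]
  have jensen := hf'.circleAverage_log_norm hR.ne' hfc
  rw [hRabs] at jensen
  set D := divisor f (closedBall c R) with hD
  have hfin : (Function.support fun u => (D u : ℝ) * Real.log (R * ‖c - u‖⁻¹)).Finite := by
    refine (D.finiteSupport (isCompact_closedBall c R)).subset fun u hu => ?_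
    rw [Function.mem_support] at hu ⊢
    intro h
    rw [h] at hu
    simp at hu
  have hnonneg : ∀ u, 0 ≤ (D u : ℝ) * Real.log (R * ‖c - u‖⁻¹) := by
    intro u
    by_cases hu : u ∈ closedBall c R
    · have hD0 : (0 : ℝ) ≤ D u := by
        rw [hD, divisor_eq hf hu]
        positivity
      refine mul_nonneg hD0 ?_
      rcases eq_or_ne u c with rfl | huc
      · simp
      · refine Real.log_nonneg ?_
        have h1 : 0 < ‖c - u‖ := norm_pos_iff.mpr (sub_ne_zero.mpr huc.symm)
        rw [← div_eq_mul_inv, le_div_iff₀ h1, one_mul]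
        rw [mem_closedBall, dist_comm, dist_eq_norm] at hu
        exact hu
    · have : D u = 0 := Function.locallyFinsuppWithin.apply_eq_zero_of_notMem _ hu
      rw [this]
      simp
  have hsum : (∑ s ∈ S, (analyticOrderNatAt f s : ℝ)) * Real.log (R / r) ≤
      ∑ᶠ u, (D u : ℝ) * Real.log (R * ‖c - u‖⁻¹) := by
    rw [finsum_eq_sum_of_support_subset (s := hfin.toFinset ∪ S) _ (by
      intro u hu
      simp only [Finset.coe_union, Set.mem_union, Set.Finite.coe_toFinset]
      exact Or.inl hu), Finset.sum_mul]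
    refine le_trans ?_ (Finset.sum_le_sum_of_subset_of_nonneg
      (Finset.subset_union_right (s₁ := hfin.toFinset) (s₂ := S)) fun u _ _ => hnonneg u)
    refine Finset.sum_le_sum fun s hs => ?_
    have hsr := hS s hs
    have hsR : s ∈ closedBall c R := closedBall_subset_closedBall hrR.le hsr
    have e : (D s : ℝ) = (analyticOrderNatAt f s : ℝ) := by
      rw [hD, divisor_eq hf hsR]
      push_cast
      rfl
    rw [e]
    rcases eq_or_ne s c with rfl | hsc
    · have h0 : analyticOrderNatAt f s = 0 := by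
        by_contra h
        exact hfc (apply_eq_zero_of_analyticOrderNatAt_ne_zero h)
      rw [h0]
      simp
    · have h1 : 0 < ‖c - s‖ := norm_pos_iff.mpr (sub_ne_zero.mpr hsc.symm)
      have h2 : ‖c - s‖ ≤ r := by
        rw [mem_closedBall, dist_comm, dist_eq_norm] at hsr
        exact hsr
      rw [← div_eq_mul_inv]
      gcongr
  have hint : circleAverage (fun z => Real.log ‖f z‖) c R ≤
      circleAverage (fun z => ‖f z‖ ^ 2 / 2) c R := by
    refine circleAverage_mono ?_ ?_ fun z hz => ?_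
    · exact (hf'.mono sphere_subset_closedBall).meromorphicOn.circleIntegrable_log_norm
    · refine ContinuousOn.circleIntegrable' ?_
      have h1 : ContinuousOn f (sphere c |R|) :=
        hf'.continuousOn.mono sphere_subset_closedBall
      exact (h1.norm.pow 2).div_const 2
    · rcases eq_or_lt_of_le (norm_nonneg (f z)) with h | h
      · rw [← h]
        simp
      · have h3 := Real.log_le_sub_one_of_pos h
        nlinarith [sq_nonneg (‖f z‖ - 1)]
  have hhalf : circleAverage (fun z => ‖f z‖ ^ 2 / 2) c R =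
      circleAverage (fun z => ‖f z‖ ^ 2) c R / 2 := by
    rw [circleAverage, circleAverage]
    simp only [smul_eq_mul, intervalIntegral.integral_div]
    ring
  rw [hhalf] at hint
  linarith

/-- a lower bound on the line `re s = 2` -/
theorem norm_zeta_two_ge (t : ℝ) : 1 / 4 ≤ ‖riemannZeta (2 + t * I)‖ := by
  have hre : (2 + t * I : ℂ).re = 2 := by simp
  have hs : 1 < (2 + t * I : ℂ).re := by rw [hre]; norm_num
  have h2 : HasSum (fun n : ℕ => 1 / (((n + 1 : ℕ) : ℝ)) ^ 2) (π ^ 2 / 6) := by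
    have h := hasSum_zeta_two
    rw [← hasSum_nat_add_iff' 1] at h
    simpa using h
  have h1 : Summable fun n : ℕ => 1 / ((n : ℂ) + 1) ^ (2 + t * I : ℂ) := by
    have h := (summable_nat_add_iff 1).mpr (Complex.summable_one_div_nat_cpow.mpr hs)
    refine h.congr fun n => ?_
    push_cast
    rfl
  have hn : ∀ n : ℕ, ‖1 / ((n : ℂ) + 1) ^ (2 + t * I : ℂ)‖ = 1 / (((n + 1 : ℕ) : ℝ)) ^ 2 := by
    intro n
    have e : ((n : ℂ) + 1) = (((n + 1 : ℕ) : ℝ) : ℂ) := by push_cast; rfl
    rw [e, norm_div, norm_one, norm_cpow_eq_rpow_re_of_pos (by positivity), hre]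
    norm_num
  have h3 : riemannZeta (2 + t * I) = 1 + ∑' n : ℕ, 1 / (((n + 1 : ℕ) : ℂ) + 1) ^ (2 + t * I : ℂ) := by
    rw [zeta_eq_tsum_one_div_nat_add_one_cpow hs, h1.tsum_eq_zero_add]
    simp
  have h4 : ‖∑' n : ℕ, 1 / (((n + 1 : ℕ) : ℂ) + 1) ^ (2 + t * I : ℂ)‖ ≤ π ^ 2 / 6 - 1 := by
    have h5 : HasSum (fun n : ℕ => 1 / (((n + 1 + 1 : ℕ) : ℝ)) ^ 2) (π ^ 2 / 6 - 1) := by
      have h := (hasSum_nat_add_iff' 1).mpr h2
      simpa using h
    refine tsum_of_norm_bounded h5 fun n => ?_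
    exact (hn (n + 1)).le
  have h6 : (1 : ℝ) - (π ^ 2 / 6 - 1) ≤ ‖riemannZeta (2 + t * I)‖ := by
    rw [h3]
    set w := ∑' n : ℕ, 1 / (((n + 1 : ℕ) : ℂ) + 1) ^ (2 + t * I : ℂ)
    have h7 : ‖(1 : ℂ)‖ ≤ ‖1 + w‖ + ‖w‖ := by
      calc ‖(1 : ℂ)‖ = ‖(1 + w) - w‖ := by congr 1; ring
        _ ≤ _ := norm_sub_le _ _
    rw [norm_one] at h7
    linarith
  have hpi : π < 3.15 := Real.pi_lt_d2
  have hpi0 := Real.pi_pos
  nlinarith

end Fermat.Agent.Cor.ZD

end
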