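import Fermat.Agent.Corollaries.ZetaK.ZD.Block

/-!
# The theorem of Bohr and Landau
-/

set_option autoImplicit false

noncomputable section

namespace Fermat.Agent.Cor.ZD

open Complex Real Filter Topology Set MeasureTheory Metric

/-- zeros near height `t` lie in the small disc -/
theorem mem_disc {σ₀ η t : ℝ} (hσ : σ₀ ≤ 1) (hη : 0 < η) (hη1 : η ≤ 1 / 4) {s : ℂ}
    (h1 : σ₀ ≤ s.re) (h2 : s.re ≤ 1) (h3 : |s.im - t| ≤ η) :
    s ∈ closedBall (2 + (t : ℂ) * I) (2 - σ₀ + η / 2) := by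
  rw [mem_closedBall, dist_eq_norm]
  have hr : 0 ≤ 2 - σ₀ + η / 2 := by linarith
  rw [← abs_of_nonneg hr, ← Real.sqrt_sq_eq_abs, Complex.norm_eq_sqrt_sq_add_sq]
  refine Real.sqrt_le_sqrt ?_
  have e1 : (s - (2 + (t : ℂ) * I)).re = s.re - 2 := by simp
  have e2 : (s - (2 + (t : ℂ) * I)).im = s.im - t := by simp
  rw [e1, e2]
  have h4 : (s.im - t) ^ 2 ≤ η ^ 2 := by
    rw [← sq_abs]
    gcongr
  have h5 : (s.re - 2) ^ 2 ≤ (2 - σ₀) ^ 2 := by nlinarith
  nlinarith

/-- the zeros in a block of height `T/2` -/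
theorem block_le (hM : MeanGenStmt) {σ₀ : ℝ} (h0 : 1 / 2 < σ₀) (h1 : σ₀ ≤ 1) :
    ∃ C : ℝ, 0 < C ∧ ∀ T : ℝ, 8 ≤ T → ∀ S : Finset ℂ,
      (∀ s ∈ S, riemannZeta s = 0 ∧ σ₀ ≤ s.re ∧ T / 2 < s.im ∧ s.im ≤ T) →
      ∑ s ∈ S, (analyticOrderNatAt riemannZeta s : ℝ) ≤ C * T := by
  classical
  set η : ℝ := (σ₀ - 1 / 2) / 2 with hη
  have hη0 : 0 < η := by rw [hη]; linarith
  have hη1 : η ≤ 1 / 4 := by rw [hη]; linarith
  set σ₁ : ℝ := σ₀ - η with hσ₁
  have hσ₁h : 1 / 2 < σ₁ := by rw [hσ₁, hη]; linarith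
  set R : ℝ := 2 - σ₁ with hR
  set r : ℝ := 2 - σ₀ + η / 2 with hr
  have hr0 : 0 < r := by rw [hr]; linarith
  have hrR : r < R := by rw [hr, hR, hσ₁]; linarith
  have hR0 : 0 < R := hr0.trans hrR
  have hR32 : R ≤ 3 / 2 := by rw [hR]; linarith
  have hRabs : |R| ≤ 3 / 2 := by rwa [abs_of_pos hR0]
  obtain ⟨A, hA0, hA⟩ := hM σ₁ hσ₁h
  set L : ℝ := Real.log (R / r) with hL
  have hL0 : 0 < L := Real.log_pos (by rwa [one_lt_div hr0])
  set C₀ : ℝ := Real.log 4 with hC₀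
  have hC₀0 : 0 ≤ C₀ := Real.log_nonneg (by norm_num)
  refine ⟨(A + C₀) / (η * L), by positivity, fun T hT S hS => ?_⟩
  set N : ℝ := ∑ s ∈ S, (analyticOrderNatAt riemannZeta s : ℝ) with hN
  set K : ℕ := ⌊T / 2 / η⌋₊ + 1 with hK
  have hKη : (K : ℝ) * η ≤ T / 2 + η := by
    have h2 : ((⌊T / 2 / η⌋₊ : ℕ) : ℝ) ≤ T / 2 / η := Nat.floor_le (by positivity)
    rw [le_div_iff₀ hη0] at h2
    rw [hK]
    push_cast
    linarith
  have hK0 : 0 ≤ (K : ℝ) * η := by positivity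
  set a : ℕ → ℝ := fun k => T / 2 + k * η with ha
  set kk : ℂ → ℕ := fun s => ⌊(s.im - T / 2) / η⌋₊ with hkk
  -- pointwise inequality
  have hpt : ∀ τ ∈ Icc (0 : ℝ) η, N * L ≤ ∑ k ∈ Finset.range K, (Ph R (a k + τ) / 2 + C₀) := by
    intro τ hτ
    have hmaps : ∀ s ∈ S, kk s ∈ Finset.range K := by
      intro s hs
      obtain ⟨_, _, h4, h5⟩ := hS s hs
      rw [Finset.mem_range, hK, Nat.lt_succ_iff]
      exact Nat.floor_le_floor (by gcongr; linarith)
    rw [hN, ← Finset.sum_fiberwise_of_maps_to hmaps, Finset.sum_mul]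
    refine Finset.sum_le_sum fun k hk => ?_
    have hkK : ((k : ℝ) + 1) ≤ K := by exact_mod_cast Finset.mem_range.mp hk
    have hak : 4 ≤ a k + τ := by
      have : 0 ≤ (k : ℝ) * η := by positivity
      rw [ha]
      simp only
      linarith [hτ.1]
    rw [Ph_eq hak]
    have han : AnalyticOnNhd ℂ riemannZeta (closedBall (2 + ((a k + τ : ℝ) : ℂ) * I) R) := by
      have hU : IsOpen ({1}ᶜ : Set ℂ) := isOpen_compl_singleton
      have hd : DifferentiableOn ℂ riemannZeta ({1}ᶜ : Set ℂ) := fun z hz =>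
        (differentiableAt_riemannZeta hz).differentiableWithinAt
      intro z hz
      refine hd.analyticOnNhd hU z ?_
      rw [mem_compl_singleton_iff]
      rintro rfl
      rw [mem_closedBall, dist_eq_norm] at hz
      have h6 := (Complex.abs_im_le_norm (1 - (2 + ((a k + τ : ℝ) : ℂ) * I))).trans hz
      have e : (1 - (2 + ((a k + τ : ℝ) : ℂ) * I)).im = -(a k + τ) := by simp
      rw [e, abs_neg, abs_of_pos (by linarith)] at h6
      linarith
    have hc := norm_zeta_two_ge (a k + τ)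
    have hcpos : 0 < ‖riemannZeta (2 + ((a k + τ : ℝ) : ℂ) * I)‖ := by linarith
    have hj := jensen_sum_le hr0 hrR han (norm_pos_iff.mp hcpos)
      (S.filter fun s => kk s = k) fun s hs => by
        rw [Finset.mem_filter] at hs
        obtain ⟨h3, h3', h4, h5⟩ := hS s hs.1
        have hre : s.re ≤ 1 := by
          by_contra hcon
          exact riemannZeta_ne_zero_of_one_le_re (by linarith) h3
        refine mem_disc h1 hη0 hη1 h3' hre ?_
        have h6 : (k : ℝ) ≤ (s.im - T / 2) / η := by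
          rw [← hs.2]
          exact Nat.floor_le (div_nonneg (by linarith) hη0.le)
        have h7 : (s.im - T / 2) / η < k + 1 := by
          rw [← hs.2]
          exact Nat.lt_floor_add_one _
        rw [le_div_iff₀ hη0] at h6
        rw [div_lt_iff₀ hη0] at h7
        rw [ha, abs_le]
        simp only
        constructor <;> linarith [hτ.1, hτ.2]
    have hlog : -C₀ ≤ Real.log ‖riemannZeta (2 + ((a k + τ : ℝ) : ℂ) * I)‖ := by
      rw [hC₀, ← Real.log_inv]
      exact Real.log_le_log (by norm_num) (by linarith)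
    linarith
  -- integrate
  have hcont : Continuous (Ph R) := continuous_Ph hRabs
  have hint : ∫ _τ in (0 : ℝ)..η, N * L ≤
      ∫ τ in (0 : ℝ)..η, ∑ k ∈ Finset.range K, (Ph R (a k + τ) / 2 + C₀) := by
    refine intervalIntegral.integral_mono_on hη0.le intervalIntegrable_const ?_ hpt
    refine Continuous.intervalIntegrable ?_ _ _
    refine continuous_finsetSum _ fun k _ => ?_
    exact ((hcont.comp (continuous_const.add continuous_id)).div_const 2).add continuous_const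
  rw [intervalIntegral.integral_const, sub_zero, smul_eq_mul] at hint
  have hsum : ∫ τ in (0 : ℝ)..η, ∑ k ∈ Finset.range K, (Ph R (a k + τ) / 2 + C₀) =
      ∫ t in (T / 2)..(T / 2 + K * η), (Ph R t / 2 + C₀) := by
    have hc2 : Continuous fun t => Ph R t / 2 + C₀ := (hcont.div_const 2).add continuous_const
    rw [intervalIntegral.integral_finsetSum fun k _ => by
      refine Continuous.intervalIntegrable ?_ _ _
      exact ((hcont.comp (continuous_const.add continuous_id)).div_const 2).add continuous_const]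
    have e : ∀ k ∈ Finset.range K, ∫ τ in (0 : ℝ)..η, (Ph R (a k + τ) / 2 + C₀) =
        ∫ t in (a k)..(a (k + 1)), (Ph R t / 2 + C₀) := by
      intro k _
      rw [intervalIntegral.integral_comp_add_left (fun t => Ph R t / 2 + C₀) (a k), add_zero]
      congr 1
      rw [ha]
      push_cast
      ring
    rw [Finset.sum_congr rfl e, intervalIntegral.sum_integral_adjacent_intervals
      fun k _ => hc2.intervalIntegrable _ _]
    rw [ha]
    simp
  rw [hsum, intervalIntegral.integral_add ((hcont.div_const 2).intervalIntegrable _ _)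
    intervalIntegrable_const, intervalIntegral.integral_div, intervalIntegral.integral_const,
    smul_eq_mul] at hint
  have hPh := integral_Ph_le (A := A) (σ₁ := σ₁) (b := T / 2 + K * η) hR0.le hR32
    (by rw [hR]; ring) hT (by linarith) (by linarith) hA
  have h9 : η * (N * L) ≤ A * T + T * C₀ := by
    have h10 : (T / 2 + K * η - T / 2) * C₀ ≤ T * C₀ := by
      gcongr
      linarith
    linarith
  rw [div_mul_eq_mul_div, le_div_iff₀ (by positivity)]
  calc N * (η * L) = η * (N * L) := by ring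
    _ ≤ A * T + T * C₀ := h9
    _ = (A + C₀) * T := by ring

/-- the set of zeros -/
def ZS (σ₀ T : ℝ) : Set ℂ := {s : ℂ | riemannZeta s = 0 ∧ σ₀ ≤ s.re ∧ 0 < s.im ∧ s.im ≤ T}

theorem finite_ZS (σ₀ T : ℝ) : (ZS σ₀ T).Finite := by
  by_contra hinf
  have hinf' : (ZS σ₀ T).Infinite := hinf
  set K : Set ℂ := reProdIm (Icc σ₀ 1) (Icc 0 T) with hK
  have hKc : IsCompact K := isCompact_Icc.reProdIm isCompact_Icc
  have hsub : ZS σ₀ T ⊆ K := by
    rintro s ⟨h1, h2, h3, h4⟩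
    have hre : s.re ≤ 1 := by
      by_contra hcon
      exact riemannZeta_ne_zero_of_one_le_re (by linarith) h1
    rw [hK, mem_reProdIm]
    exact ⟨⟨h2, hre⟩, ⟨h3.le, h4⟩⟩
  obtain ⟨z, _, hz⟩ := hinf'.exists_accPt_of_subset_isCompact hKc hsub
  have hfreq : ∃ᶠ s in 𝓝[≠] z, riemannZeta₁ s = 0 := by
    rw [accPt_iff_frequently_nhdsNE] at hz
    refine hz.mono fun s hs => ?_
    have hs1 : s ≠ 1 := ne_one_of_im hs.2.2.1.ne'
    have h := hs.1
    rw [riemannZeta_eq_inv_sub_mul hs1] at h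
    exact (mul_eq_zero.mp h).resolve_left (inv_ne_zero (sub_ne_zero.mpr hs1))
  have hA : AnalyticOnNhd ℂ riemannZeta₁ univ :=
    differentiable_riemannZeta₁.differentiableOn.analyticOnNhd isOpen_univ
  have h0 := hA.eqOn_zero_of_preconnected_of_frequently_eq_zero isPreconnected_univ
    (mem_univ z) hfreq
  have h1 := h0 (mem_univ 1)
  rw [riemannZeta₁_one] at h1
  exact one_ne_zero h1

/-- the number of zeros, with multiplicity -/
def NN (σ₀ T : ℝ) : ℝ := ∑ s ∈ (finite_ZS σ₀ T).toFinset, (analyticOrderNatAt riemannZeta s : ℝ)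

theorem NN_nonneg (σ₀ T : ℝ) : 0 ≤ NN σ₀ T := Finset.sum_nonneg fun _ _ => by positivity

theorem NN_mono {σ₀ σ T T' : ℝ} (hσ : σ₀ ≤ σ) (h : T ≤ T') : NN σ T ≤ NN σ₀ T' := by
  refine Finset.sum_le_sum_of_subset_of_nonneg ?_ fun _ _ _ => by positivity
  rw [Set.Finite.toFinset_subset_toFinset]
  rintro s ⟨h1, h2, h3, h4⟩
  exact ⟨h1, hσ.trans h2, h3, h4.trans h⟩

theorem NN_split (σ₀ : ℝ) {T : ℝ} (hT : 0 < T) {B : ℝ}
    (h : ∀ S : Finset ℂ, (∀ s ∈ S, riemannZeta s = 0 ∧ σ₀ ≤ s.re ∧ T / 2 < s.im ∧ s.im ≤ T) →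
      ∑ s ∈ S, (analyticOrderNatAt riemannZeta s : ℝ) ≤ B) : NN σ₀ T ≤ NN σ₀ (T / 2) + B := by
  classical
  rw [NN, ← Finset.sum_filter_add_sum_filter_not _ fun s : ℂ => s.im ≤ T / 2]
  refine add_le_add ?_ (h _ fun s hs => ?_)
  · refine Finset.sum_le_sum_of_subset_of_nonneg (fun s hs => ?_) fun _ _ _ => by positivity
    rw [Finset.mem_filter, Set.Finite.mem_toFinset] at hs
    rw [Set.Finite.mem_toFinset]
    exact ⟨hs.1.1, hs.1.2.1, hs.1.2.2.1, hs.2⟩
  · rw [Finset.mem_filter, Set.Finite.mem_toFinset, not_le] at hs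
    exact ⟨hs.1.1, hs.1.2.1, hs.2, hs.1.2.2.2⟩

/-- the bound for `1/2 < σ₀ ≤ 1` -/
theorem NN_le (hM : MeanGenStmt) {σ₀ : ℝ} (h0 : 1 / 2 < σ₀) (h1 : σ₀ ≤ 1) :
    ∃ C : ℝ, 0 < C ∧ ∀ T : ℝ, 1 ≤ T → NN σ₀ T ≤ C * T := by
  obtain ⟨C₁, hC₁, hb⟩ := block_le hM h0 h1
  set C : ℝ := max (2 * C₁) (NN σ₀ 8) with hC
  have hC0 : 0 < C := lt_of_lt_of_le (by linarith) (le_max_left _ _)
  refine ⟨C, hC0, ?_⟩
  have key : ∀ n : ℕ, ∀ T : ℝ, 1 ≤ T → T ≤ 8 * 2 ^ n → NN σ₀ T ≤ C * T := by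
    intro n
    induction n with
    | zero =>
      intro T hT hT8
      rw [pow_zero, mul_one] at hT8
      calc NN σ₀ T ≤ NN σ₀ 8 := NN_mono le_rfl hT8
        _ ≤ C := le_max_right _ _
        _ = C * 1 := by ring
        _ ≤ C * T := by gcongr
    | succ n ih =>
      intro T hT hTn
      rcases le_total T 8 with h8 | h8
      · calc NN σ₀ T ≤ NN σ₀ 8 := NN_mono le_rfl h8
          _ ≤ C := le_max_right _ _
          _ = C * 1 := by ring
          _ ≤ C * T := by gcongr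
      · have h2 := NN_split σ₀ (T := T) (by linarith) (hb T h8)
        have h3 := ih (T / 2) (by linarith) (by rw [pow_succ] at hTn; linarith)
        have h4 : 2 * C₁ ≤ C := le_max_left _ _
        have h5 : 2 * C₁ * T ≤ C * T := by gcongr
        calc NN σ₀ T ≤ NN σ₀ (T / 2) + C₁ * T := h2
          _ ≤ C * (T / 2) + C₁ * T := by linarith
          _ ≤ C * T := by linarith
  intro T hT
  obtain ⟨n, hn⟩ := pow_unbounded_of_one_lt T (one_lt_two (α := ℝ))
  exact key n T hT (by linarith)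

/-- (Z4) -/
theorem densityStmt (hM : MeanGenStmt) : DensityStmt := by
  intro σ₀ h0
  obtain ⟨C, hC, hCT⟩ := NN_le hM (σ₀ := min σ₀ 1) (lt_min h0 (by norm_num)) (min_le_right _ _)
  refine ⟨C, hC, fun T hT => ⟨finite_ZS σ₀ T, ?_⟩⟩
  have e : (∑ᶠ s ∈ {s : ℂ | riemannZeta s = 0 ∧ σ₀ ≤ s.re ∧ 0 < s.im ∧ s.im ≤ T},
      (analyticOrderNatAt riemannZeta s : ℝ)) = NN σ₀ T :=
    finsum_mem_eq_finite_toFinset_sum _ (finite_ZS σ₀ T)
  rw [e]
  exact (NN_mono (min_le_left _ _) le_rfl).trans (hCT T hT)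

end Fermat.Agent.Cor.ZD

end
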